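import Mathlib
import Fermat.Prelude.Def_FLTPrelim_FreyPackage
import Fermat.Prelude.Def_FLTPrelim_Modularity

/-!
# Elementary facts about the integral Frey curve (helper for S04 and friends)

* `Fermat.Agent.S04.freyCurveInt_map` : `P.freyCurveInt.map (Int.castRingHom ℚ) = P.freyCurve`
* `Fermat.Agent.S04.freyCurveInt_Δ_ne_zero`
* `Fermat.Agent.S04.freyCurveInt_isSemistableModel`
* `Fermat.Agent.S04.frey_isModular_of_semistable_modular` : S04 from the statement of S60.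
-/

set_option autoImplicit false

namespace Fermat.Agent.S04

open WeierstrassCurve

/-- `a ^ p ≡ 3 mod 4`. -/
lemma frey_a_pow_mod_four (P : FreyPackage) : ((P.a ^ P.p : ℤ) : ZMod 4) = 3 := by
  have h := P.ha4
  obtain ⟨k, hk⟩ := P.hp_odd
  push_cast
  rw [h, hk, pow_succ, pow_mul]
  have : (3 : ZMod 4) ^ 2 = 1 := by decide
  rw [this, one_pow, one_mul]

/-- `32 ∣ b ^ p`. -/
lemma frey_thirtytwo_dvd_b_pow (P : FreyPackage) : (32 : ℤ) ∣ P.b ^ P.p := by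
  have h2 : (2 : ℤ) ∣ P.b := (ZMod.intCast_zmod_eq_zero_iff_dvd P.b 2).1 P.hb2
  have h5 : (2 : ℤ) ^ 5 ∣ P.b ^ P.p :=
    (pow_dvd_pow_of_dvd h2 5).trans (pow_dvd_pow _ P.hp5)
  simpa using h5

/-- `4 ∣ b ^ p - 1 - a ^ p`. -/
lemma frey_four_dvd (P : FreyPackage) : (4 : ℤ) ∣ P.b ^ P.p - 1 - P.a ^ P.p := by
  have hA := frey_a_pow_mod_four P
  have hB : (4 : ℤ) ∣ P.b ^ P.p := Dvd.dvd.trans (by norm_num) (frey_thirtytwo_dvd_b_pow P)
  have hB' : ((P.b ^ P.p : ℤ) : ZMod 4) = 0 :=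
    (ZMod.intCast_zmod_eq_zero_iff_dvd _ 4).2 hB
  apply (ZMod.intCast_zmod_eq_zero_iff_dvd _ 4).1
  rw [Int.cast_sub, Int.cast_sub, hA, hB']
  decide

/-- `16 ∣ -(a ^ p) * b ^ p`. -/
lemma frey_sixteen_dvd (P : FreyPackage) : (16 : ℤ) ∣ -(P.a ^ P.p) * (P.b ^ P.p) := by
  have hB : (16 : ℤ) ∣ P.b ^ P.p := Dvd.dvd.trans (by norm_num) (frey_thirtytwo_dvd_b_pow P)
  exact Dvd.dvd.mul_left hB _

/-- The integral Frey curve is a model of the rational Frey curve (on the nose). -/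
theorem freyCurveInt_map (P : FreyPackage) :
    P.freyCurveInt.map (Int.castRingHom ℚ) = P.freyCurve := by
  obtain ⟨m, hm⟩ := frey_four_dvd P
  obtain ⟨n, hn⟩ := frey_sixteen_dvd P
  have h2 : (P.b ^ P.p - 1 - P.a ^ P.p) / 4 = m := by
    rw [hm]; exact Int.mul_ediv_cancel_left _ (by norm_num)
  have h4 : -(P.a ^ P.p) * (P.b ^ P.p) / 16 = n := by
    rw [hn]; exact Int.mul_ediv_cancel_left _ (by norm_num)
  have hmQ : ((P.b : ℚ) ^ P.p - 1 - (P.a : ℚ) ^ P.p) / 4 = m := by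
    have : ((P.b ^ P.p - 1 - P.a ^ P.p : ℤ) : ℚ) = ((4 * m : ℤ) : ℚ) := by rw [hm]
    push_cast at this
    rw [this]; field_simp
  have hnQ : -((P.a : ℚ) ^ P.p) * ((P.b : ℚ) ^ P.p) / 16 = n := by
    have : ((-(P.a ^ P.p) * (P.b ^ P.p) : ℤ) : ℚ) = ((16 * n : ℤ) : ℚ) := by rw [hn]
    push_cast at this
    rw [this]; field_simp
  ext
  · simp [FreyPackage.freyCurveInt, FreyPackage.freyCurve, WeierstrassCurve.map]
  · simp only [FreyPackage.freyCurveInt, FreyPackage.freyCurve, WeierstrassCurve.map]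
    rw [h2, hmQ]; simp
  · simp [FreyPackage.freyCurveInt, FreyPackage.freyCurve, WeierstrassCurve.map]
  · simp only [FreyPackage.freyCurveInt, FreyPackage.freyCurve, WeierstrassCurve.map]
    rw [h4, hnQ]; simp
  · simp [FreyPackage.freyCurveInt, FreyPackage.freyCurve, WeierstrassCurve.map]

/-- `2 ^ 8 * Δ = (a^p)^2 (b^p)^2 (c^p)^2` for the integral Frey curve. -/
theorem freyCurveInt_Δ (P : FreyPackage) :
    2 ^ 8 * P.freyCurveInt.Δ = (P.a ^ P.p) ^ 2 * (P.b ^ P.p) ^ 2 * (P.c ^ P.p) ^ 2 := by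
  obtain ⟨m, hm⟩ := frey_four_dvd P
  obtain ⟨n, hn⟩ := frey_sixteen_dvd P
  have h2 : (P.b ^ P.p - 1 - P.a ^ P.p) / 4 = m := by
    rw [hm]; exact Int.mul_ediv_cancel_left _ (by norm_num)
  have h4 : -(P.a ^ P.p) * (P.b ^ P.p) / 16 = n := by
    rw [hn]; exact Int.mul_ediv_cancel_left _ (by norm_num)
  have hC := P.hFLT
  simp only [FreyPackage.freyCurveInt, WeierstrassCurve.Δ, WeierstrassCurve.b₂,
    WeierstrassCurve.b₄, WeierstrassCurve.b₆, WeierstrassCurve.b₈]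
  rw [h2, h4, ← hC]
  generalize P.a ^ P.p = A at *
  generalize P.b ^ P.p = B at *
  have hB : B = 4 * m + 1 + A := by linarith
  subst hB
  have hn' : 16 * n = -(A * (4 * m + 1 + A)) := by linarith
  have key : (2 : ℤ) ^ 8 * (-(1 ^ 2 + 4 * m) ^ 2 * (1 ^ 2 * 0 + 4 * m * 0 - 1 * 0 * n + m * 0 ^ 2 - n ^ 2)
      - 8 * (2 * n + 1 * 0) ^ 3 - 27 * (0 ^ 2 + 4 * 0) ^ 2
      + 9 * (1 ^ 2 + 4 * m) * (2 * n + 1 * 0) * (0 ^ 2 + 4 * 0))
      = (16 * n) ^ 2 * ((1 + 4 * m) ^ 2 - 4 * (16 * n)) := by ring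
  rw [key, hn']
  ring

/-- `c₄ = A² + AB + B²` for the integral Frey curve. -/
theorem freyCurveInt_c₄ (P : FreyPackage) :
    P.freyCurveInt.c₄ = (P.a ^ P.p) ^ 2 + P.a ^ P.p * P.b ^ P.p + (P.b ^ P.p) ^ 2 := by
  obtain ⟨m, hm⟩ := frey_four_dvd P
  obtain ⟨n, hn⟩ := frey_sixteen_dvd P
  have h2 : (P.b ^ P.p - 1 - P.a ^ P.p) / 4 = m := by
    rw [hm]; exact Int.mul_ediv_cancel_left _ (by norm_num)
  have h4 : -(P.a ^ P.p) * (P.b ^ P.p) / 16 = n := by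
    rw [hn]; exact Int.mul_ediv_cancel_left _ (by norm_num)
  simp only [FreyPackage.freyCurveInt, WeierstrassCurve.c₄, WeierstrassCurve.b₂,
    WeierstrassCurve.b₄]
  rw [h2, h4]
  generalize P.a ^ P.p = A at *
  generalize P.b ^ P.p = B at *
  have hB : B = 4 * m + 1 + A := by linarith
  subst hB
  have hn' : 16 * n = -(A * (4 * m + 1 + A)) := by linarith
  linear_combination (-3 : ℤ) * hn'

theorem freyCurveInt_Δ_ne_zero (P : FreyPackage) : P.freyCurveInt.Δ ≠ 0 := by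
  intro h
  have h1 := freyCurveInt_Δ P
  rw [h, mul_zero] at h1
  have ha : P.a ^ P.p ≠ 0 := pow_ne_zero _ P.ha0
  have hb : P.b ^ P.p ≠ 0 := pow_ne_zero _ P.hb0
  have hc : P.c ^ P.p ≠ 0 := pow_ne_zero _ P.hc0
  exact (mul_ne_zero (mul_ne_zero (pow_ne_zero 2 ha) (pow_ne_zero 2 hb)) (pow_ne_zero 2 hc)) h1.symm

theorem freyCurveInt_isSemistableModel (P : FreyPackage) : P.freyCurveInt.IsSemistableModel := by
  intro ℓ hℓ hΔ hc4
  have hℓ' : Prime (ℓ : ℤ) := Nat.prime_iff_prime_int.mp hℓ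
  have h1 := freyCurveInt_Δ P
  have hdvd : (ℓ : ℤ) ∣ (P.a ^ P.p) ^ 2 * (P.b ^ P.p) ^ 2 * (P.c ^ P.p) ^ 2 := by
    rw [← h1]; exact Dvd.dvd.mul_left hΔ _
  rw [freyCurveInt_c₄] at hc4
  have hab : IsCoprime P.a P.b :=
    (gcd_isUnit_iff _ _).mp (by rw [P.hgcdab]; exact isUnit_one)
  have hac : IsCoprime P.a P.c :=
    (gcd_isUnit_iff _ _).mp (by rw [P.hgcdac]; exact isUnit_one)
  have hbc : IsCoprime P.b P.c :=
    (gcd_isUnit_iff _ _).mp (by rw [P.hgcdbc]; exact isUnit_one)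
  have hnot : ∀ x y : ℤ, IsCoprime x y → (ℓ : ℤ) ∣ x → (ℓ : ℤ) ∣ y → False := by
    intro x y hxy hx hy
    exact hℓ'.not_isUnit (hxy.isUnit_of_dvd' hx hy)
  rcases hℓ'.dvd_or_dvd hdvd with h | h
  · rcases hℓ'.dvd_or_dvd h with h | h
    · -- ℓ ∣ a
      have ha : (ℓ : ℤ) ∣ P.a := hℓ'.dvd_of_dvd_pow (hℓ'.dvd_of_dvd_pow h)
      have hA : (ℓ : ℤ) ∣ P.a ^ P.p := Dvd.dvd.pow ha P.hp0
      have : (ℓ : ℤ) ∣ (P.b ^ P.p) ^ 2 := by
        have h3 : (ℓ : ℤ) ∣ (P.a ^ P.p) ^ 2 + P.a ^ P.p * P.b ^ P.p :=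
          Dvd.dvd.add (Dvd.dvd.pow hA two_ne_zero) (Dvd.dvd.mul_right hA _)
        exact (Int.dvd_add_right h3).mp hc4
      exact hnot _ _ hab ha (hℓ'.dvd_of_dvd_pow (hℓ'.dvd_of_dvd_pow this))
    · -- ℓ ∣ b
      have hb : (ℓ : ℤ) ∣ P.b := hℓ'.dvd_of_dvd_pow (hℓ'.dvd_of_dvd_pow h)
      have hB : (ℓ : ℤ) ∣ P.b ^ P.p := Dvd.dvd.pow hb P.hp0
      have : (ℓ : ℤ) ∣ (P.a ^ P.p) ^ 2 := by
        have h3 : (ℓ : ℤ) ∣ P.a ^ P.p * P.b ^ P.p + (P.b ^ P.p) ^ 2 :=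
          Dvd.dvd.add (Dvd.dvd.mul_left hB _) (Dvd.dvd.pow hB two_ne_zero)
        rw [add_assoc] at hc4
        exact (Int.dvd_add_left h3).mp hc4
      exact hnot _ _ hab (hℓ'.dvd_of_dvd_pow (hℓ'.dvd_of_dvd_pow this)) hb
  · -- ℓ ∣ c
    have hc : (ℓ : ℤ) ∣ P.c := hℓ'.dvd_of_dvd_pow (hℓ'.dvd_of_dvd_pow h)
    have hC : (ℓ : ℤ) ∣ P.c ^ P.p := Dvd.dvd.pow hc P.hp0
    have hid : (P.a ^ P.p) ^ 2 + P.a ^ P.p * P.b ^ P.p + (P.b ^ P.p) ^ 2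
        = (P.c ^ P.p) ^ 2 - P.a ^ P.p * P.b ^ P.p := by
      rw [← P.hFLT]; ring
    rw [hid] at hc4
    have : (ℓ : ℤ) ∣ P.a ^ P.p * P.b ^ P.p := by
      have h3 : (ℓ : ℤ) ∣ (P.c ^ P.p) ^ 2 := Dvd.dvd.pow hC two_ne_zero
      exact (dvd_sub_right h3).mp hc4
    rcases hℓ'.dvd_or_dvd this with h | h
    · exact hnot _ _ hac (hℓ'.dvd_of_dvd_pow h) hc
    · exact hnot _ _ hbc (hℓ'.dvd_of_dvd_pow h) hc

/-- S04 from (the statement of) S60. -/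
theorem frey_isModular_of_semistable_modular
    (h60 : ∀ W : WeierstrassCurve ℤ, W.Δ ≠ 0 → W.IsSemistableModel →
      (W.map (Int.castRingHom ℚ)).IsModular)
    (P : FreyPackage) : P.freyCurve.IsModular := by
  rw [← freyCurveInt_map]
  exact h60 _ (freyCurveInt_Δ_ne_zero P) (freyCurveInt_isSemistableModel P)

end Fermat.Agent.S04
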